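/-
PROJECT R (S43), block T1 (helper26): THE NON-NODE CLAUSE BY A DIMENSION COUNT, AT ANY MULTIPLIER
`n > 0` (no hypothesis on the residue characteristic).

`S44/Core/DimCount` proves: for a two-sided unit `u ∈ O₁ ∩ O₂` with `div u = p • D`, `deg D = 0`,
whose node orders add up to multiples of `p`, the orders of `red₁ u`, `red₂ u` at the places which
are NOT over a node are multiples of `p`.  There `p` is the residue characteristic: the middle object
`frobPre = {(a, b) | (ū₁ a ^ p, ū₂ b ^ p) glued}` is a `k`-subspace because Frobenius is additive.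

Here the same statement for EVERY `n > 0`: `frobPre` is replaced by the IMAGE
`redImage = {red12 y | y ∈ O₁ ∩ O₂ ∩ W}` of the space of sections, a `k`-subspace as soon as
`π : A → k` is onto; every element of it is the reduction of ONE `y`, so the glueing property of
`(ū₁ a ^ n, ū₂ b ^ n) = red12 (u y ^ n)` holds pointwise on it, and the upper bound
`ℓ(G₁ + ⌊div ū₁ / n⌋) + ℓ(G₂ + ⌊(div ū₂ - nodes) / n⌋)` only needs that pointwise property.

* `redImage`, `finrank_le_of_pointwise` (the upper bound for any subspace with the pointwise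
  property), `dvd_ord_red_of_not_nodeN`, `dvd_ord_red_unitN`.
-/
import Fermat.Agent.S44.Core.DimCount

set_option autoImplicit false
set_option linter.unusedSectionVars false
set_option linter.unusedVariables false

noncomputable section

namespace Fermat.Agent.S43.T1.Core.DimCountN

open AlgebraicCurve Fermat.Agent.S24.Ord Fermat.Agent.S34.NodalDefs
  Fermat.Agent.S33.Nodal.Glued Fermat.Agent.S33.Nodal.SemiCont Fermat.Agent.S18.NonSpecial
open Fermat.Agent.S44.Core.DimCount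

variable {L : Type*} [Field L] {FL : Type*} [Field FL] [Algebra L FL]
variable {k : Type*} [Field k] {F1 : Type*} [Field F1] [Algebra k F1]
  {F2 : Type*} [Field F2] [Algebra k F2]
variable {A : ValuationSubring L} {π : A →+* k} {ι : Type*}
variable (N : GNodalDatum A π FL F1 F2 ι)

/-! ### the image of a space of sections under the pair of reductions -/

/-- the reductions of the elements of `W` integral at both Gauss valuations: a `k`-subspace, `π`
being onto -/
def redImage (hπ : Function.Surjective π) (W : Submodule L FL) : Submodule k (F1 × F2) where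
  carrier := {v | ∃ y : O12 N, ((y : O12 N) : FL) ∈ W ∧ red12 N y = v}
  add_mem' := by
    rintro _ _ ⟨y, hy, rfl⟩ ⟨z, hz, rfl⟩
    exact ⟨y + z, W.add_mem hy hz, map_add _ _ _⟩
  zero_mem' := ⟨0, W.zero_mem, map_zero _⟩
  smul_mem' := by
    rintro c _ ⟨y, hy, rfl⟩
    obtain ⟨a, rfl⟩ := hπ c
    refine ⟨const12 N a * y, ?_, ?_⟩
    · show algebraMap L FL (a : L) * ((y : O12 N) : FL) ∈ W
      rw [← Algebra.smul_def]
      exact W.smul_mem _ hy
    · rw [map_mul, red12_const12]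
      refine Prod.ext ?_ ?_
      · show algebraMap k F1 (π a) * (red12 N y).1 = π a • (red12 N y).1
        rw [Algebra.smul_def]
      · show algebraMap k F2 (π a) * (red12 N y).2 = π a • (red12 N y).2
        rw [Algebra.smul_def]

theorem mem_redImage {hπ : Function.Surjective π} {W : Submodule L FL} {v : F1 × F2} :
    v ∈ redImage N hπ W ↔ ∃ y : O12 N, ((y : O12 N) : FL) ∈ W ∧ red12 N y = v := Iff.rfl

theorem red12_mem_redImage (hπ : Function.Surjective π) (W : Submodule L FL) (y : O12 N)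
    (hy : ((y : O12 N) : FL) ∈ W) : red12 N y ∈ redImage N hπ W := ⟨y, hy, rfl⟩

/-! ### the upper bound -/

/-- **the upper bound**: a `k`-subspace `V` of pairs `(a, b)` such that `(φ1 a ^ n, φ2 b ^ n)` is a
glued section of `O(n G₁)`, `O(n G₂)` for every `(a, b) ∈ V` has dimension at most
`ℓ(G₁ + ⌊div φ1 / n⌋) + ℓ(G₂ + ⌊(div φ2 - nodes) / n⌋)` -/
theorem finrank_le_of_pointwise {n : ℕ} (hn : 0 < n)
    (hfin1 : ∀ D : Divisor k F1, Module.Finite k (riemannRochSpace D))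
    (hfin2 : ∀ D : Divisor k F2, Module.Finite k (riemannRochSpace D))
    {φ1 : F1} {φ2 : F2} (hφ1 : φ1 ≠ 0) (hφ2 : φ2 ≠ 0)
    (Δ1 G1 E1 : Divisor k F1) (Δ2 G2 E2 : Divisor k F2)
    (hΔ1 : ∀ Q : Place k F1, Δ1 Q = Q.ord φ1) (hΔ2 : ∀ Q : Place k F2, Δ2 Q = Q.ord φ2)
    (hE1 : ∀ Q : Place k F1, E1 Q = (n : ℤ) * G1 Q)
    (hE2 : ∀ Q : Place k F2, E2 Q = (n : ℤ) * G2 Q) (hG2 : ∀ Q : Place k F2, 0 ≤ G2 Q)
    (T2 : Finset (Place k F2)) (hT2 : ∀ Q ∈ T2, ∃ e, N.e2 e = Q)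
    (V : Submodule k (F1 × F2))
    (hV : ∀ y ∈ V, ((φ1 * y.1 ^ n, φ2 * y.2 ^ n) : F1 × F2) ∈ Glued N E1 E2) :
    Module.Finite k V ∧
      Module.finrank k V ≤ ell (G1 + fl n Δ1) + ell (G2 + fl n (Δ2 - sumPlaces T2)) := by
  have hm1 : ∀ y ∈ V, y.1 ∈ riemannRochSpace (G1 + fl n Δ1) :=
    fun y hy => mem_rr_fl hn hφ1 Δ1 G1 E1 hΔ1 hE1 (hV y hy).1
  have hm2 : ∀ y ∈ V, y.2 ∈ riemannRochSpace (G2 + fl n Δ2) :=
    fun y hy => mem_rr_fl hn hφ2 Δ2 G2 E2 hΔ2 hE2 (hV y hy).2.1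
  have hle : V ≤ (riemannRochSpace (G1 + fl n Δ1)).prod (riemannRochSpace (G2 + fl n Δ2)) :=
    fun y hy => ⟨hm1 y hy, hm2 y hy⟩
  have hfinV : Module.Finite k V := by
    have := hfin1 (G1 + fl n Δ1)
    have := hfin2 (G2 + fl n Δ2)
    have h1 : (riemannRochSpace (G1 + fl n Δ1)).FG := (Submodule.fg_top _).mp Module.Finite.fg_top
    have h2 : (riemannRochSpace (G2 + fl n Δ2)).FG := (Submodule.fg_top _).mp Module.Finite.fg_top
    have : Module.Finite k ((riemannRochSpace (G1 + fl n Δ1)).prod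
        (riemannRochSpace (G2 + fl n Δ2))) := Module.Finite.iff_fg.mpr (h1.prod h2)
    exact Submodule.finiteDimensional_of_le hle
  refine ⟨hfinV, ?_⟩
  have := hfin1 (G1 + fl n Δ1)
  have := hfin2 (G2 + fl n (Δ2 - sumPlaces T2))
  let ψ : V →ₗ[k] riemannRochSpace (G1 + fl n Δ1) :=
    { toFun := fun y => ⟨(y : F1 × F2).1, hm1 y.1 y.2⟩
      map_add' := fun y z => rfl
      map_smul' := fun c y => rfl }
  have hrk := LinearMap.finrank_range_add_finrank_ker ψ
  have hrange : Module.finrank k (LinearMap.range ψ) ≤ ell (G1 + fl n Δ1) :=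
    Submodule.finrank_le (LinearMap.range ψ)
  have hkmem : ∀ y : LinearMap.ker ψ,
      ((y : V) : F1 × F2).2 ∈ riemannRochSpace (G2 + fl n (Δ2 - sumPlaces T2)) := by
    intro y
    have hy0 : ((y : V) : F1 × F2).1 = 0 :=
      congrArg Subtype.val (LinearMap.mem_ker.mp y.2)
    have hy : ((φ1 * ((y : V) : F1 × F2).1 ^ n, φ2 * ((y : V) : F1 × F2).2 ^ n) : F1 × F2) ∈
        Glued N E1 E2 := hV _ y.1.2
    refine mem_rr_fl_sub hn hφ2 Δ2 G2 E2 hΔ2 hE2 hG2 T2 hy.2.1 fun Q hQ => ?_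
    obtain ⟨e, rfl⟩ := hT2 Q hQ
    obtain ⟨γ, hγ1, hγ2⟩ := hy.2.2 e
    rw [hy0, zero_pow hn.ne', mul_zero] at hγ1
    rw [eq_zero_of_hasValue_zero _ hγ1] at hγ2
    exact hγ2
  have hker : Module.finrank k (LinearMap.ker ψ) ≤ ell (G2 + fl n (Δ2 - sumPlaces T2)) := by
    let j : LinearMap.ker ψ →ₗ[k] riemannRochSpace (G2 + fl n (Δ2 - sumPlaces T2)) :=
      { toFun := fun y => ⟨((y : V) : F1 × F2).2, hkmem y⟩
        map_add' := fun y z => rfl
        map_smul' := fun c y => rfl }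
    have hinj : Function.Injective j := by
      intro y z hyz
      have h2 : ((y : V) : F1 × F2).2 = ((z : V) : F1 × F2).2 := congrArg Subtype.val hyz
      have h1 : ((y : V) : F1 × F2).1 = ((z : V) : F1 × F2).1 := by
        rw [show ((y : V) : F1 × F2).1 = 0 from congrArg Subtype.val (LinearMap.mem_ker.mp y.2),
          show ((z : V) : F1 × F2).1 = 0 from congrArg Subtype.val (LinearMap.mem_ker.mp z.2)]
      exact Subtype.ext (Subtype.ext (Prod.ext h1 h2))
    exact LinearMap.finrank_le_finrank_of_injective hinj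
  omega

/-! ### the non-node clause -/

set_option maxHeartbeats 1600000 in
/-- **the non-node clause by a dimension count, at any multiplier `n > 0`.** -/
theorem dvd_ord_red_of_not_nodeN {n : ℕ} (hn : 0 < n) (hπ : Function.Surjective π)
    [Fintype ι] [HasPrincipalDivisors L FL]
    [HasPrincipalDivisors k F1] [HasPrincipalDivisors k F2] (hO : OrthoPair N) {g g1 g2 : ℕ}
    (hL : RiemannHyp L FL g) (h1 : RiemannHyp k F1 g1) (h2 : RiemannHyp k F2 g2)
    (hg : (g : ℤ) + 1 = g1 + g2 + Fintype.card ι)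
    (he1 : Function.Injective N.e1) (he2 : Function.Injective N.e2)
    {P1 P2 : Place L FL} {Q1 : Place k F1} {Q2 : Place k F2}
    (hQ1 : Q1 ∈ N.R1.good) (hP1 : N.R1.r P1 = some Q1)
    (hQ2 : Q2 ∈ N.R2.good) (hP2 : N.R2.r P2 = some Q2)
    (u : O12 N) (hu1 : N.R1.red (incl1 N u) ≠ 0) (hu2 : N.R2.red (incl2 N u) ≠ 0)
    (D : Divisor L FL) (hD0 : Divisor.degree D = 0)
    (hD : ∀ P : Place L FL, (n : ℤ) * D P = P.ord ((u : O12 N) : FL))
    (hnode : ∀ e, (n : ℤ) ∣ (N.e1 e).ord (N.R1.red (incl1 N u)) +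
      (N.e2 e).ord (N.R2.red (incl2 N u))) :
    (∀ Q : Place k F1, (∀ e, Q ≠ N.e1 e) → (n : ℤ) ∣ Q.ord (N.R1.red (incl1 N u))) ∧
      ∀ Q : Place k F2, (∀ e, Q ≠ N.e2 e) → (n : ℤ) ∣ Q.ord (N.R2.red (incl2 N u)) := by
  classical
  have hn' : (0 : ℤ) < (n : ℤ) := by exact_mod_cast hn
  set φ1 : F1 := N.R1.red (incl1 N u) with hφ1
  set φ2 : F2 := N.R2.red (incl2 N u) with hφ2
  have hu0 : ((u : O12 N) : FL) ≠ 0 :=
    Fermat.Agent.S34.NodalDisc.coe_ne_zero_of_red_ne_zero N.R1.toBranch (u := incl1 N u) hu1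
  obtain ⟨Δ1, hΔ1, hΔ1deg⟩ := HasPrincipalDivisors.exists_divisor (K := k) φ1 hu1
  obtain ⟨Δ2, hΔ2, hΔ2deg⟩ := HasPrincipalDivisors.exists_divisor (K := k) φ2 hu2
  set T1 : Finset (Place k F1) := Finset.univ.image N.e1 with hT1
  set T2 : Finset (Place k F2) := Finset.univ.image N.e2 with hT2
  have hT1card : (T1.card : ℤ) = Fintype.card ι := by
    rw [hT1, Finset.card_image_of_injective _ he1, Finset.card_univ]
  have hT2card : (T2.card : ℤ) = Fintype.card ι := by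
    rw [hT2, Finset.card_image_of_injective _ he2, Finset.card_univ]
  -- the two floor divisors and their degrees
  set d1 : ℤ := Divisor.degree (fl n Δ1) with hd1
  set d2 : ℤ := Divisor.degree (fl n (Δ2 - sumPlaces T2)) with hd2
  set m1 : ℤ := Divisor.degree (md n Δ1) with hm1
  set m2 : ℤ := Divisor.degree (md n (Δ2 - sumPlaces T2)) with hm2
  have hdeg1 : (0 : ℤ) = (n : ℤ) * d1 + m1 := by
    rw [hd1, hm1, ← degree_eq_fl_md, hΔ1deg]
  have hdeg2 : -(Fintype.card ι : ℤ) = (n : ℤ) * d2 + m2 := by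
    rw [hd2, hm2, ← degree_eq_fl_md, map_sub, hΔ2deg, degree_sumPlaces h2.deg_one, hT2card,
      zero_sub]
  -- the size of `G`
  obtain ⟨cL, hcL⟩ := hL.riemann_eq
  obtain ⟨c1, hc1⟩ := h1.riemann_eq
  obtain ⟨c2, hc2⟩ := h2.riemann_eq
  obtain ⟨s, hs0, hs1, hs2⟩ : ∃ s : ℕ, cL ≤ (s : ℤ) ∧ c1 - d1 ≤ (s : ℤ) ∧ c2 - d2 ≤ (s : ℤ) := by
    refine ⟨(max cL (max (c1 - d1) (c2 - d2))).toNat, ?_, ?_, ?_⟩
    · exact le_trans (le_max_left _ _) (Int.self_le_toNat _)
    · exact le_trans (le_trans (le_max_left _ _) (le_max_right _ _)) (Int.self_le_toNat _)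
    · exact le_trans (le_trans (le_max_right _ _) (le_max_right _ _)) (Int.self_le_toNat _)
  set G : Divisor L FL := Finsupp.single P1 (s : ℤ) + Finsupp.single P2 (s : ℤ) with hG
  set G' : Divisor L FL := Finsupp.single P1 ((n : ℤ) * s) + Finsupp.single P2 ((n : ℤ) * s)
    with hG'
  set G1 : Divisor k F1 := Finsupp.single Q1 (s : ℤ) with hG1
  set G2 : Divisor k F2 := Finsupp.single Q2 (s : ℤ) with hG2
  have hG'G : ∀ P : Place L FL, G' P = (n : ℤ) * G P := by
    intro P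
    rw [hG', hG, Finsupp.add_apply, Finsupp.add_apply, Finsupp.single_apply, Finsupp.single_apply,
      Finsupp.single_apply, Finsupp.single_apply]
    split_ifs <;> ring
  have hgood : GoodSupp N G' :=
    (goodSupp_single1 N hQ1 hP1 _).add N (goodSupp_single2 N hQ2 hP2 _)
  have hpush1 : push1 N G' = Finsupp.single Q1 ((n : ℤ) * s) := by
    rw [hG', push1_add, push1_single_of_some N hP1, push1_single_of_some2 N hP2, add_zero]
  have hpush2 : push2 N G' = Finsupp.single Q2 ((n : ℤ) * s) := by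
    rw [hG', push2_add, push2_single_of_some1 N hP1, push2_single_of_some N hP2, zero_add]
  have hE1 : ∀ Q : Place k F1, (push1 N G') Q = (n : ℤ) * G1 Q := by
    intro Q
    rw [hpush1, hG1, Finsupp.single_apply, Finsupp.single_apply]
    split_ifs <;> ring
  have hE2 : ∀ Q : Place k F2, (push2 N G') Q = (n : ℤ) * G2 Q := by
    intro Q
    rw [hpush2, hG2, Finsupp.single_apply, Finsupp.single_apply]
    split_ifs <;> ring
  have hG2nn : ∀ Q : Place k F2, 0 ≤ G2 Q := by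
    intro Q
    rw [hG2, Finsupp.single_apply]
    split_ifs
    · exact Int.natCast_nonneg s
    · exact le_rfl
  -- the pointwise glueing property on the image
  have hpt : ∀ v ∈ redImage N hπ (riemannRochSpace (D + G)),
      ((φ1 * v.1 ^ n, φ2 * v.2 ^ n) : F1 × F2) ∈ Glued N (push1 N G') (push2 N G') := by
    rintro _ ⟨y, hy, rfl⟩
    have hmem : (((u * y ^ n : O12 N)) : FL) ∈ riemannRochSpace G' := by
      rw [mem_riemannRochSpace_iff] at hy ⊢
      intro P
      have hcoe : (((u * y ^ n : O12 N)) : FL) = ((u : O12 N) : FL) * ((y : O12 N) : FL) ^ n := rfl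
      rcases eq_or_ne ((y : O12 N) : FL) 0 with hy0 | hy0
      · left
        rw [hcoe, hy0, zero_pow hn.ne', mul_zero]
      right
      have h3 := (hy P).resolve_left hy0
      rw [Finsupp.add_apply] at h3
      rw [hcoe, Place.ord_mul P hu0 (pow_ne_zero n hy0), Fermat.Agent.S18.CoreOrd.ord_pow,
        ← hD P, hG'G P]
      have := mul_le_mul_of_nonneg_left h3 hn'.le
      linarith
    have hgl := red12_mem_glued N (u * y ^ n) G' hgood hmem
    have hpair : ((φ1 * (red12 N y).1 ^ n, φ2 * (red12 N y).2 ^ n) : F1 × F2) =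
        red12 N (u * y ^ n) := by
      rw [map_mul, map_pow]
      rfl
    rw [hpair]
    exact hgl
  -- the upper bound
  obtain ⟨hfinV, hupper⟩ := finrank_le_of_pointwise N hn h1.finite h2.finite hu1 hu2 Δ1 G1
    (push1 N G') Δ2 G2 (push2 N G') hΔ1 hΔ2 hE1 hE2 hG2nn T2
    (fun Q hQ => by
      obtain ⟨e, -, he⟩ := Finset.mem_image.mp hQ
      exact ⟨e, he⟩)
    (redImage N hπ (riemannRochSpace (D + G))) hpt
  -- the lower bound
  have : Module.Finite L (riemannRochSpace (D + G)) := hL.finite _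
  have hlower := finrank_le_of_red12_mem N hO (riemannRochSpace (D + G))
    (redImage N hπ (riemannRochSpace (D + G)))
    (fun y hy => red12_mem_redImage N hπ _ y hy)
  -- Riemann on the three curves
  have hdegG : Divisor.degree (D + G) = 2 * (s : ℤ) := by
    rw [map_add, hD0, hG, map_add, Divisor.degree_single, Divisor.degree_single, hL.deg_one,
      hL.deg_one]
    push_cast
    ring
  have hRL : (ell (D + G) : ℤ) = 2 * (s : ℤ) + 1 - g := by
    rw [hcL (D + G) (by rw [hdegG]; linarith [Int.natCast_nonneg s]), hdegG]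
  have hdegG1 : Divisor.degree (G1 + fl n Δ1) = (s : ℤ) + d1 := by
    rw [map_add, hG1, Divisor.degree_single, h1.deg_one]
    push_cast
    ring
  have hdegG2 : Divisor.degree (G2 + fl n (Δ2 - sumPlaces T2)) = (s : ℤ) + d2 := by
    rw [map_add, hG2, Divisor.degree_single, h2.deg_one]
    push_cast
    ring
  have hR1 : (ell (G1 + fl n Δ1) : ℤ) = (s : ℤ) + d1 + 1 - g1 := by
    rw [hc1 _ (by rw [hdegG1]; linarith), hdegG1]
  have hR2 : (ell (G2 + fl n (Δ2 - sumPlaces T2)) : ℤ) = (s : ℤ) + d2 + 1 - g2 := by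
    rw [hc2 _ (by rw [hdegG2]; linarith), hdegG2]
  have hmain : m1 + m2 ≤ ((n : ℤ) - 1) * Fintype.card ι := by
    have hlow' : (ell (D + G) : ℤ) ≤
        (ell (G1 + fl n Δ1) : ℤ) + (ell (G2 + fl n (Δ2 - sumPlaces T2)) : ℤ) := by
      have : ell (D + G) ≤ ell (G1 + fl n Δ1) + ell (G2 + fl n (Δ2 - sumPlaces T2)) :=
        le_trans hlower hupper
      exact_mod_cast this
    rw [hRL, hR1, hR2] at hlow'
    have h5 : -(Fintype.card ι : ℤ) ≤ d1 + d2 := by linarith
    have h6 := mul_le_mul_of_nonneg_left h5 hn'.le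
    linarith
  -- the nodes use up the whole bound
  have hnode' : ∀ e, md n Δ1 (N.e1 e) + md n (Δ2 - sumPlaces T2) (N.e2 e) = (n : ℤ) - 1 := by
    intro e
    have hmem : N.e2 e ∈ T2 := Finset.mem_image.mpr ⟨e, Finset.mem_univ e, rfl⟩
    rw [md_apply, md_apply, Finsupp.sub_apply, sumPlaces_apply_of_mem hmem, hΔ1, hΔ2]
    exact emod_add_emod_sub_one hn (hnode e)
  have hsum1 : ∑ Q ∈ T1, md n Δ1 Q = ∑ e, md n Δ1 (N.e1 e) := by
    rw [hT1, Finset.sum_image fun a _ b _ h => he1 h]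
  have hsum2 : ∑ Q ∈ T2, md n (Δ2 - sumPlaces T2) Q = ∑ e, md n (Δ2 - sumPlaces T2) (N.e2 e) := by
    rw [hT2, Finset.sum_image fun a _ b _ h => he2 h]
  have hsum12 : (∑ Q ∈ T1, md n Δ1 Q) + ∑ Q ∈ T2, md n (Δ2 - sumPlaces T2) Q =
      ((n : ℤ) - 1) * Fintype.card ι := by
    rw [hsum1, hsum2, ← Finset.sum_add_distrib, Finset.sum_congr rfl fun e _ => hnode' e,
      Finset.sum_const, Finset.card_univ, nsmul_eq_mul]
    ring
  refine ⟨fun Q hQ => ?_, fun Q hQ => ?_⟩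
  · have hQT : Q ∉ T1 := by
      intro h
      obtain ⟨e, -, he⟩ := Finset.mem_image.mp h
      exact hQ e he.symm
    have hs1' := sum_le_degree h1.deg_one (md n Δ1) (md_nonneg hn Δ1) (insert Q T1)
    have hs2' := sum_le_degree h2.deg_one (md n (Δ2 - sumPlaces T2)) (md_nonneg hn _) T2
    rw [Finset.sum_insert hQT] at hs1'
    have h0 : md n Δ1 Q ≤ 0 := by linarith
    have h0' : md n Δ1 Q = 0 := le_antisymm h0 (md_nonneg hn Δ1 Q)
    rw [md_apply, hΔ1] at h0'
    exact Int.dvd_of_emod_eq_zero h0'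
  · have hQT : Q ∉ T2 := by
      intro h
      obtain ⟨e, -, he⟩ := Finset.mem_image.mp h
      exact hQ e he.symm
    have hs1' := sum_le_degree h1.deg_one (md n Δ1) (md_nonneg hn Δ1) T1
    have hs2' := sum_le_degree h2.deg_one (md n (Δ2 - sumPlaces T2)) (md_nonneg hn _)
      (insert Q T2)
    rw [Finset.sum_insert hQT] at hs2'
    have h0 : md n (Δ2 - sumPlaces T2) Q ≤ 0 := by linarith
    have h0' : md n (Δ2 - sumPlaces T2) Q = 0 := le_antisymm h0 (md_nonneg hn _ Q)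
    rw [md_apply, Finsupp.sub_apply, sumPlaces_apply_of_not_mem hQT, sub_zero, hΔ2] at h0'
    exact Int.dvd_of_emod_eq_zero h0'

set_option maxHeartbeats 1600000 in
/-- **the non-node clause for a unit of the first Gauss ring, at any multiplier `n > 0`.**
`div u = n • D`, `deg D = 0`, `u` a unit of `O₁`; `hLC` is the local count at the nodes for
two-sided units whose divisor is a multiple of `n`.  Then the orders of `red₁ u` off the nodes are
multiples of `n`, and `u = c * u2` with `u2` a unit of `O₂` whose reduction has the same property;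
at the nodes, divisibility passes from the first branch to the second. -/
theorem dvd_ord_red_unitN {n : ℕ} (hn : 0 < n) (hπ : Function.Surjective π)
    [Fintype ι] [HasPrincipalDivisors L FL]
    [HasPrincipalDivisors k F1] [HasPrincipalDivisors k F2] (hO : OrthoPair N) {g g1 g2 : ℕ}
    (hL : RiemannHyp L FL g) (h1 : RiemannHyp k F1 g1) (h2 : RiemannHyp k F2 g2)
    (hg : (g : ℤ) + 1 = g1 + g2 + Fintype.card ι)
    (he1 : Function.Injective N.e1) (he2 : Function.Injective N.e2)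
    {P1 P2 : Place L FL} {Q1 : Place k F1} {Q2 : Place k F2}
    (hQ1 : Q1 ∈ N.R1.good) (hP1 : N.R1.r P1 = some Q1)
    (hQ2 : Q2 ∈ N.R2.good) (hP2 : N.R2.r P2 = some Q2)
    (hne : N.R1.O ≠ N.R2.O) (ha1 : Fermat.Agent.S34.WeakApprox.Arch N.R1.O)
    (ha2 : Fermat.Agent.S34.WeakApprox.Arch N.R2.O) (ht1 : N.R1.O ≠ ⊤) (ht2 : N.R2.O ≠ ⊤)
    (hroot : ∀ c : L, ∃ d : L, d ^ n = c)
    (hLC : ∀ (v : O12 N) (D' : Divisor L FL), N.R1.red (incl1 N v) ≠ 0 →
      N.R2.red (incl2 N v) ≠ 0 → (∀ P : Place L FL, (n : ℤ) * D' P = P.ord ((v : O12 N) : FL)) →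
      ∀ e, (n : ℤ) ∣ (N.e1 e).ord (N.R1.red (incl1 N v)) + (N.e2 e).ord (N.R2.red (incl2 N v)))
    (D : Divisor L FL) (hD0 : Divisor.degree D = 0) (u : N.R1.Oˣ)
    (hD : ∀ P : Place L FL, (n : ℤ) * D P = P.ord (((u : N.R1.O)) : FL)) :
    (∀ Q : Place k F1, (∀ e, Q ≠ N.e1 e) → (n : ℤ) ∣ Q.ord (N.R1.red (u : N.R1.O))) ∧
      ∃ (u2 : N.R2.Oˣ) (c : L), c ≠ 0 ∧
        (((u : N.R1.O)) : FL) = algebraMap L FL c * (((u2 : N.R2.O)) : FL) ∧
        (∀ Q : Place k F2, (∀ e, Q ≠ N.e2 e) → (n : ℤ) ∣ Q.ord (N.R2.red (u2 : N.R2.O))) ∧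
        ∀ e, (n : ℤ) ∣ (N.e1 e).ord (N.R1.red (u : N.R1.O)) →
          (n : ℤ) ∣ (N.e2 e).ord (N.R2.red (u2 : N.R2.O)) := by
  have hnne : n ≠ 0 := hn.ne'
  have hu0 : (((u : N.R1.O)) : FL) ≠ 0 :=
    Fermat.Agent.S34.NodalDisc.coe_unit_ne_zero N.R1.toBranch u
  obtain ⟨c0, hc0, u2, hu⟩ := N.R2.exists_const_mul_unit _ hu0
  obtain ⟨d, hd⟩ := hroot c0⁻¹
  have hd0 : d ≠ 0 := by
    intro h0
    rw [h0, zero_pow hnne] at hd
    exact inv_ne_zero hc0 hd.symm
  have hdF : algebraMap L FL d ≠ 0 := (map_ne_zero _).mpr hd0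
  obtain ⟨y, hy0, ⟨hy1, -⟩, ⟨hy2, -⟩⟩ :=
    Fermat.Agent.S34.WeakApproxMul.exists_approx_two ha1 ha2 hne ht1 ht2 (one_ne_zero (α := FL)) hdF
  rw [div_one] at hy1
  obtain ⟨w1, hw1, hw1red⟩ := exists_unit_eq_of_isOneUnit N.R1.toBranch hy1
  obtain ⟨w2, hw2, hw2red⟩ := exists_unit_eq_of_isOneUnit N.R2.toBranch hy2
  -- the two-sided unit
  have hv2 : (((u : N.R1.O)) : FL) * y ^ n = (((u2 * w2 ^ n : N.R2.Oˣ) : N.R2.O) : FL) := by
    rw [Units.val_mul, Units.val_pow_eq_pow_val, MulMemClass.coe_mul, SubmonoidClass.coe_pow, hw2,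
      hu, div_pow, ← map_pow, hd, map_inv₀]
    field_simp
  have hv1 : (((u : N.R1.O)) : FL) * y ^ n = (((u * w1 ^ n : N.R1.Oˣ) : N.R1.O) : FL) := by
    rw [Units.val_mul, Units.val_pow_eq_pow_val, MulMemClass.coe_mul, SubmonoidClass.coe_pow, hw1]
  have hmem : (((u : N.R1.O)) : FL) * y ^ n ∈ O12 N :=
    (mem_O12 N).mpr ⟨hv1 ▸ ((u * w1 ^ n : N.R1.Oˣ) : N.R1.O).2,
      hv2 ▸ ((u2 * w2 ^ n : N.R2.Oˣ) : N.R2.O).2⟩
  set v : O12 N := ⟨(((u : N.R1.O)) : FL) * y ^ n, hmem⟩ with hv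
  have hi1 : incl1 N v = ((u * w1 ^ n : N.R1.Oˣ) : N.R1.O) := Subtype.ext hv1
  have hi2 : incl2 N v = ((u2 * w2 ^ n : N.R2.Oˣ) : N.R2.O) := Subtype.ext hv2
  have hr1 : N.R1.red (incl1 N v) = N.R1.red (u : N.R1.O) := by
    rw [hi1, Units.val_mul, Units.val_pow_eq_pow_val, map_mul, map_pow, hw1red, one_pow, mul_one]
  have hr2 : N.R2.red (incl2 N v) = N.R2.red (u2 : N.R2.O) := by
    rw [hi2, Units.val_mul, Units.val_pow_eq_pow_val, map_mul, map_pow, hw2red, one_pow, mul_one]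
  have hr1ne : N.R1.red (incl1 N v) ≠ 0 := by
    rw [hr1]; exact Fermat.Agent.S34.NodalDisc.red_unit_ne_zero N.R1.toBranch u
  have hr2ne : N.R2.red (incl2 N v) ≠ 0 := by
    rw [hr2]; exact Fermat.Agent.S34.NodalDisc.red_unit_ne_zero N.R2.toBranch u2
  obtain ⟨Dy, hDy, hDydeg⟩ := HasPrincipalDivisors.exists_divisor (K := L) y hy0
  have hD' : ∀ P : Place L FL, (n : ℤ) * (D + Dy) P = P.ord ((v : O12 N) : FL) := by
    intro P
    show (n : ℤ) * (D + Dy) P = P.ord ((((u : N.R1.O)) : FL) * y ^ n)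
    rw [Place.ord_mul P hu0 (pow_ne_zero n hy0), Fermat.Agent.S18.CoreOrd.ord_pow,
      Finsupp.add_apply, mul_add, hD P, hDy P]
  have hD'0 : Divisor.degree (D + Dy) = 0 := by rw [map_add, hD0, hDydeg, add_zero]
  have hnode := hLC v (D + Dy) hr1ne hr2ne hD'
  obtain ⟨hs1, hs2⟩ := dvd_ord_red_of_not_nodeN N hn hπ hO hL h1 h2 hg he1 he2 hQ1 hP1 hQ2 hP2 v
    hr1ne hr2ne (D + Dy) hD'0 hD' hnode
  rw [hr1] at hs1
  rw [hr2] at hs2
  refine ⟨hs1, u2, c0, hc0, hu, hs2, fun e he => ?_⟩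
  have := hnode e
  rw [hr1, hr2] at this
  exact (Int.dvd_add_right he).mp this

end Fermat.Agent.S43.T1.Core.DimCountN

end
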